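/-
S27lib / TC / Card  (helper4) — Project D, insurance chain (TC): cardinality of ultrapowers.

`J` an infinite type, `U` an ultrafilter on `Finset J` containing the cones `{s | a ∈ s}`
(a regular ultrafilter), `A` an infinite type with `#A ≤ #J` (same universe):
`#(Germ U A) = 2 ^ #J`.

* `coneUltra J`, `cone_mem_coneUltra` : such an ultrafilter (`Ultrafilter.of atTop`);
* `two_power_le_mk_germ` : `2 ^ #J ≤ #(Germ U A)`   (`f : J → Bool ↦ [s ↦ code_s (f|s)]`);
* `mk_germ_le`           : `#(Germ U A) ≤ #A ^ #J`;
* `mk_germ_eq`           : `#(Germ U A) = 2 ^ #J`;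
* `germCongr`            : `Germ l A ≃ Germ l B` from `A ≃ B`.
-/
import Mathlib

set_option autoImplicit false

noncomputable section

namespace Fermat.Agent.S27lib.TC

open Filter Cardinal

universe u v

section Cone

variable (J : Type u)

open Classical in
/-- an ultrafilter on the finite subsets of `J`, finer than `atTop` -/
def coneUltra : Ultrafilter (Finset J) := Ultrafilter.of atTop

open Classical in
theorem cone_mem_coneUltra (a : J) : {s : Finset J | a ∈ s} ∈ (coneUltra J : Filter (Finset J)) := by
  have h1 : {s : Finset J | a ∈ s} ∈ (atTop : Filter (Finset J)) := by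
    refine Filter.mem_of_superset (mem_atTop ({a} : Finset J)) ?_
    intro s hs
    exact hs (Finset.mem_singleton_self a)
  exact Ultrafilter.of_le _ h1

end Cone

section Congr

variable {I : Type u} (l : Filter I) {A : Type v} {B : Type*}

/-- germs of maps into equivalent types -/
def germCongr (e : A ≃ B) : Germ l A ≃ Germ l B where
  toFun := Germ.map e
  invFun := Germ.map e.symm
  left_inv x := by
    induction x using Germ.inductionOn with
    | _ f =>
      show Germ.map e.symm (Germ.map e (f : Germ l A)) = (f : Germ l A)
      rw [Germ.map_coe, Germ.map_coe]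
      congr 1
      funext i
      simp
  right_inv x := by
    induction x using Germ.inductionOn with
    | _ f =>
      show Germ.map e (Germ.map e.symm (f : Germ l B)) = (f : Germ l B)
      rw [Germ.map_coe, Germ.map_coe]
      congr 1
      funext i
      simp

end Congr

section Card

variable {J : Type u} (U : Ultrafilter (Finset J)) (hU : ∀ a : J, {s : Finset J | a ∈ s} ∈ U)
  (A : Type u)

open scoped Classical in
/-- a code of the Boolean functions on a finite set in an infinite type -/
def code [Infinite A] (s : Finset J) : (↥s → Bool) ↪ A :=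
  (Fintype.equivFin (↥s → Bool)).toEmbedding.trans
    (Fin.valEmbedding.trans (Infinite.natEmbedding A))

/-- the germ attached to a Boolean function on `J` -/
def boolGerm [Infinite A] (f : J → Bool) : Germ (U : Filter (Finset J)) A :=
  ((fun s : Finset J => code A s (fun a : ↥s => f a) : Finset J → A) :
    Germ (U : Filter (Finset J)) A)

include hU in
theorem boolGerm_injective [Infinite A] : Function.Injective (boolGerm U A) := by
  intro f g h
  by_contra hne
  obtain ⟨a, ha⟩ : ∃ a, f a ≠ g a := by
    by_contra hcon
    push Not at hcon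
    exact hne (funext hcon)
  have h1 : ∀ᶠ s in (U : Filter (Finset J)),
      code A s (fun a : ↥s => f a) = code A s (fun a : ↥s => g a) := Germ.coe_eq.mp h
  obtain ⟨s, hs⟩ := Filter.nonempty_of_mem (Filter.inter_mem h1 (hU a))
  obtain ⟨hs1, hs2⟩ := hs
  have h2 := (code A s).injective hs1
  exact ha (congrFun h2 ⟨a, hs2⟩)

include hU in
theorem two_power_le_mk_germ [Infinite A] :
    (2 : Cardinal.{u}) ^ #J ≤ #(Germ (U : Filter (Finset J)) A) := by
  have h := Cardinal.mk_le_of_injective (boolGerm_injective U hU A)
  rwa [Cardinal.mk_arrow, Cardinal.mk_bool, Cardinal.lift_two, Cardinal.lift_uzero] at h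

theorem mk_germ_le [Infinite J] : #(Germ (U : Filter (Finset J)) A) ≤ #A ^ #J := by
  have hsurj : Function.Surjective
      (fun f : Finset J → A => ((f : Finset J → A) : Germ (U : Filter (Finset J)) A)) := by
    intro x
    induction x using Germ.inductionOn with
    | _ f => exact ⟨f, rfl⟩
  have h := Cardinal.mk_le_of_surjective hsurj
  rwa [← Cardinal.power_def, Cardinal.mk_finset_of_infinite] at h

include hU in
/-- **the cardinality of a regular ultrapower** -/
theorem mk_germ_eq [Infinite J] [Infinite A] (hA : #A ≤ #J) :
    #(Germ (U : Filter (Finset J)) A) = 2 ^ #J := by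
  refine le_antisymm ?_ (two_power_le_mk_germ U hU A)
  refine (mk_germ_le U A).trans (le_of_eq ?_)
  have h2 : (2 : Cardinal.{u}) ≤ #A :=
    (Cardinal.natCast_lt_aleph0 (n := 2)).le.trans (Cardinal.aleph0_le_mk A)
  exact Cardinal.power_eq_two_power (Cardinal.aleph0_le_mk J) h2 hA

include hU in
theorem aleph0_lt_mk_germ [Infinite J] [Infinite A] (hA : #A ≤ #J) :
    ℵ₀ < #(Germ (U : Filter (Finset J)) A) := by
  rw [mk_germ_eq U hU A hA]
  exact (Cardinal.aleph0_le_mk J).trans_lt (Cardinal.cantor _)

end Card

end Fermat.Agent.S27lib.TC
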