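/-
S27lib / TC / Steinitz  (helper4) — Project D, insurance chain (TC).

Regular ultrapowers of `ℚ̄` are, as abstract fields, `ℂ` resp. ultrapowers of any algebraically
closed field of characteristic zero (Steinitz: uncountable algebraically closed fields of the same
characteristic and cardinality are isomorphic).

* `mk_qbar_le`              : `ℚ̄` is countable;
* `exists_ringEquiv_complex`: `ℂ ≃+* Germ U ℚ̄` for a suitable ultrafilter on a type in `Type`;
* `exists_ringEquiv_germ`   : `Germ U ℚ̄ ≃+* Germ U K` for a suitable ultrafilter on a type in the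
                              universe of `K`.
-/
import Mathlib
import Fermat.Agent.S27lib.TC.Card
import Fermat.Agent.S27lib.T4.GermField

set_option autoImplicit false
set_option linter.style.haveILetI false

noncomputable section

namespace Fermat.Agent.S27lib.TC

open Filter Cardinal

universe u

/-- `ℚ̄` is countable. -/
theorem mk_qbar_le : #(AlgebraicClosure ℚ) ≤ ℵ₀ := by
  letI : Algebra ℚ (AlgebraicClosure ℚ) := AlgebraicClosure.instAlgebra ℚ
  haveI : Algebra.IsAlgebraic ℚ (AlgebraicClosure ℚ) := AlgebraicClosure.isAlgebraic ℚ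
  have h := Algebra.IsAlgebraic.cardinalMk_le_max ℚ (AlgebraicClosure ℚ)
  rwa [Cardinal.mkRat, max_self] at h

/-- the ultrapowers of `ℚ̄` and of `K` over `coneUltra K` have the same cardinality `2 ^ #K` -/
theorem mk_germ_qbar (J : Type u) [Infinite J] :
    #(Germ (coneUltra J : Filter (Finset J)) (AlgebraicClosure ℚ)) = 2 ^ #J := by
  have hcongr : #(Germ (coneUltra J : Filter (Finset J)) (AlgebraicClosure ℚ)) =
      #(Germ (coneUltra J : Filter (Finset J)) (ULift.{u} (AlgebraicClosure ℚ))) :=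
    Cardinal.mk_congr (germCongr _ Equiv.ulift.symm)
  rw [hcongr]
  refine mk_germ_eq (coneUltra J) (cone_mem_coneUltra J) _ ?_
  rw [Cardinal.mk_uLift]
  calc Cardinal.lift.{u} #(AlgebraicClosure ℚ) ≤ Cardinal.lift.{u} ℵ₀ :=
        Cardinal.lift_le.mpr mk_qbar_le
    _ = ℵ₀ := Cardinal.lift_aleph0
    _ ≤ #J := Cardinal.aleph0_le_mk J

/-- **`ℂ` is a regular ultrapower of `ℚ̄`.** -/
theorem exists_ringEquiv_complex :
    ∃ (I : Type) (U : Ultrafilter I), Nonempty (ℂ ≃+* (U : Filter I).Germ (AlgebraicClosure ℚ)) := by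
  refine ⟨Finset ℕ, coneUltra ℕ, ?_⟩
  have hcard : #ℂ = #(Germ (coneUltra ℕ : Filter (Finset ℕ)) (AlgebraicClosure ℚ)) := by
    rw [mk_germ_qbar ℕ, Cardinal.mk_complex, Cardinal.mk_nat, Cardinal.two_power_aleph0]
  have hlt : ℵ₀ < #ℂ := by
    rw [Cardinal.mk_complex]; exact Cardinal.aleph0_lt_continuum
  exact IsAlgClosed.ringEquiv_of_equiv_of_charZero hlt (Cardinal.eq.mp hcard)

/-- **Regular ultrapowers of `ℚ̄` and of `K` are isomorphic.** -/
theorem exists_ringEquiv_germ (K : Type u) [Field K] [IsAlgClosed K] [CharZero K] :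
    ∃ (I : Type u) (U : Ultrafilter I),
      Nonempty ((U : Filter I).Germ (AlgebraicClosure ℚ) ≃+* (U : Filter I).Germ K) := by
  haveI : Infinite K := IsAlgClosed.instInfinite
  refine ⟨Finset K, coneUltra K, ?_⟩
  have h1 := mk_germ_qbar K
  have h2 : #(Germ (coneUltra K : Filter (Finset K)) K) = 2 ^ #K :=
    mk_germ_eq (coneUltra K) (cone_mem_coneUltra K) K le_rfl
  have hlt : ℵ₀ < #(Germ (coneUltra K : Filter (Finset K)) (AlgebraicClosure ℚ)) := by
    rw [h1]
    exact (Cardinal.aleph0_le_mk K).trans_lt (Cardinal.cantor _)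
  exact IsAlgClosed.ringEquiv_of_equiv_of_charZero hlt (Cardinal.eq.mp (h1.trans h2.symm))

end Fermat.Agent.S27lib.TC
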